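import Mathlib.FieldTheory.Galois.Infinite
import Mathlib.LinearAlgebra.LinearIndependent.Lemmas
import Mathlib.RingTheory.Adjoin.Basic
import Mathlib.Algebra.Algebra.Pi
import Mathlib.RingTheory.Localization.Module

/-!
Galois descent lemmas for functions `X → L` equivariant for an action of `L ≃ₐ[K] L` on `X`.
-/

set_option autoImplicit false

namespace Fermat.Agent.FFG

variable {K L : Type} [Field K] [Field L] [Algebra K L]
variable {X : Type}

/-- `f` commutes with the Galois action `act` on the source and the natural one on the target. -/
def IsEquivariant (act : (L ≃ₐ[K] L) → X → X) (f : X → L) : Prop :=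
  ∀ σ x, f (act σ x) = σ (f x)

theorem linearIndependent_of_equivariant [IsGalois K L] {ι : Type}
    {act : (L ≃ₐ[K] L) → X → X} (hsurj : ∀ σ, Function.Surjective (act σ))
    {v : ι → X → L} (hv : ∀ i, IsEquivariant act (v i))
    (hli : LinearIndependent K v) : LinearIndependent L v := by
  classical
  rw [linearIndependent_iff']
  intro s
  induction s using Finset.induction with
  | empty => simp
  | @insert a s has ih =>
    intro g hg
    have ha : g a = 0 := by
      by_contra ha
      -- normalise the coefficient at `a` to one
      let c : ι → L := fun i => (g a)⁻¹ * g i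
      have hc : ∀ x, ∑ i ∈ insert a s, c i * v i x = 0 := by
        intro x
        have h := congrFun hg x
        simp only [Finset.sum_apply, Pi.smul_apply, smul_eq_mul, Pi.zero_apply] at h
        simp only [c, mul_assoc, ← Finset.mul_sum, h, mul_zero]
      have hca : c a = 1 := inv_mul_cancel₀ ha
      have hfix : ∀ i ∈ insert a s, c i ∈ Set.range (algebraMap K L) := by
        intro i hi
        rw [InfiniteGalois.mem_range_algebraMap_iff_fixed]
        intro σ
        have hσ : ∀ x, ∑ j ∈ insert a s, σ (c j) * v j x = 0 := by
          intro x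
          obtain ⟨y, rfl⟩ := hsurj σ x
          have h := congrArg σ (hc y)
          simpa [map_sum, fun j => hv j σ y] using h
        have hd : ∀ j ∈ s, σ (c j) - c j = 0 := by
          apply ih (fun j => σ (c j) - c j)
          funext x
          have h1 := hσ x
          have h2 := hc x
          rw [Finset.sum_insert has, hca, map_one] at h1
          rw [Finset.sum_insert has, hca] at h2
          simp only [Finset.sum_apply, Pi.smul_apply, smul_eq_mul, Pi.zero_apply, sub_mul,
            Finset.sum_sub_distrib]
          linear_combination h1 - h2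
        rcases Finset.mem_insert.mp hi with rfl | hi
        · rw [hca, map_one]
        · exact sub_eq_zero.mp (hd i hi)
      choose! k hk using hfix
      have hzero : ∑ i ∈ insert a s, k i • v i = 0 := by
        funext x
        simp only [Finset.sum_apply, Pi.zero_apply, Algebra.smul_def, Pi.mul_apply,
          Pi.algebraMap_apply]
        rw [← hc x]
        exact Finset.sum_congr rfl fun i hi => by rw [hk i hi]
      have h0 := linearIndependent_iff'.mp hli _ k hzero a (Finset.mem_insert_self a s)
      have h1 := hk a (Finset.mem_insert_self a s)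
      rw [h0, map_zero, hca] at h1
      exact zero_ne_one h1
    intro i hi
    rcases Finset.mem_insert.mp hi with rfl | hi
    · exact ha
    · refine ih g ?_ i hi
      rw [Finset.sum_insert has, ha, zero_smul, zero_add] at hg
      exact hg

/-- A separating `L`-subalgebra of functions on a finite set is everything. -/
theorem subalgebra_eq_top_of_separates [Finite X] (A : Subalgebra L (X → L))
    (hsep : ∀ x y : X, x ≠ y → ∃ f ∈ A, f x ≠ f y) : A = ⊤ := by
  classical
  have := Fintype.ofFinite X
  have hdelta : ∀ x : X, (Pi.single x 1 : X → L) ∈ A := by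
    intro x
    have h1 : ∀ y : X, ∃ f ∈ A, f x = 1 ∧ (y ≠ x → f y = 0) := by
      intro y
      by_cases h : y = x
      · exact ⟨1, A.one_mem, rfl, fun h' => absurd h h'⟩
      · obtain ⟨f, hf, hne⟩ := hsep x y (Ne.symm h)
        refine ⟨(f x - f y)⁻¹ • (f - algebraMap L (X → L) (f y)),
          A.smul_mem (A.sub_mem hf (A.algebraMap_mem _)) _, ?_, fun _ => ?_⟩
        · simpa using inv_mul_cancel₀ (sub_ne_zero.mpr hne)
        · simp
    choose f hfA hfx hfy using h1
    have hprod : (∏ y, f y) = Pi.single x 1 := by
      funext y
      rw [Finset.prod_apply]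
      by_cases h : y = x
      · subst h
        simp [hfx]
      · rw [Pi.single_eq_of_ne h]
        exact Finset.prod_eq_zero (Finset.mem_univ y) (hfy y h)
    rw [← hprod]
    exact prod_mem fun y _ => hfA y
  rw [eq_top_iff]
  intro g _
  rw [show g = ∑ x, g x • (Pi.single x 1 : X → L) by
    funext y; simp [Finset.sum_apply, Pi.single_apply]]
  exact sum_mem fun x _ => A.smul_mem (hdelta x) _

/-- An algebra homomorphism `(X → L) → L` is an evaluation. -/
theorem exists_eval_of_algHom [Finite X] (φ : (X → L) →ₐ[L] L) :
    ∃ x, ∀ f, φ f = f x := by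
  classical
  have := Fintype.ofFinite X
  have hsum : ∑ x, φ (Pi.single x 1) = 1 := by
    rw [← map_sum, show ∑ x : X, (Pi.single x 1 : X → L) = 1 from Finset.univ_sum_single (1 : X → L)]
    exact map_one φ
  obtain ⟨x, -, hx⟩ : ∃ x ∈ (Finset.univ : Finset X), φ (Pi.single x 1) ≠ 0 :=
    Finset.exists_ne_zero_of_sum_ne_zero (by rw [hsum]; exact one_ne_zero)
  refine ⟨x, fun f => ?_⟩
  have h : f * Pi.single x 1 = f x • (Pi.single x 1 : X → L) := by
    funext y
    by_cases hy : y = x
    · subst hy; simp
    · simp [Pi.single_eq_of_ne hy]
  have h2 := congrArg φ h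
  rw [map_mul, map_smul, smul_eq_mul] at h2
  exact mul_right_cancel₀ hx h2

end Fermat.Agent.FFG
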