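import Mathlib.RingTheory.TensorProduct.Maps
import Mathlib.RingTheory.Localization.Module
import Mathlib.LinearAlgebra.FreeModule.PID
import Mathlib.RingTheory.HopfAlgebra.Basic
import Mathlib.RingTheory.Bialgebra.Convolution
import Mathlib.RingTheory.Flat.Basic
import Fermat.Agent.FFG.Descent

/-!
Finite flat models of finite Galois modules, seen as orders of equivariant functions.

`HasFlatModel R K L act` says: the Galois module `M` (action `act`) is the group of `L`-points of a
finite flat cocommutative Hopf algebra over `R` (the shape used in the Prelude's `IsFlatAt` and S19).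
`IsModel act B` says: `B` is an `R`-order inside equivariant functions `M → L`, closed under
comultiplication and separating points.
-/

set_option autoImplicit false

open scoped TensorProduct

namespace Fermat.Agent.FFG

section Defs

variable (R : Type) (K L : Type) [CommRing R] [Field K] [Field L] [Algebra K L] [Algebra R L]

/-- `M` with the Galois action `act` is the group of points of a finite flat cocommutative Hopf
algebra over `R`. -/
def HasFlatModel {M : Type} [AddCommGroup M] (act : (L ≃ₐ[K] L) → M → M) : Prop :=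
  ∃ (H : Type) (_ : CommRing H) (_ : HopfAlgebra R H),
    Module.Finite R H ∧ Module.Flat R H ∧ Coalgebra.IsCocomm R H ∧
      ∃ e : WithConv (H →ₐ[R] L) ≃ M, (∀ f g, e (f * g) = e f + e g) ∧
        ∀ (σ : L ≃ₐ[K] L) (f g : WithConv (H →ₐ[R] L)),
          (∀ h : H, g h = σ (f h)) → e g = act σ (e f)

variable {X Y X' Y' : Type}

/-- Pullback of functions along a map. -/
def pull (φ : X → Y) : (Y → L) →ₐ[R] (X → L) where
  toFun f := f ∘ φ
  map_one' := rfl
  map_mul' _ _ := rfl
  map_zero' := rfl
  map_add' _ _ := rfl
  commutes' _ := rfl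

@[simp] theorem pull_apply (φ : X → Y) (f : Y → L) (x : X) : pull R L φ f x = f (φ x) := rfl

variable {R L}

/-- The subalgebra of functions on a product generated by products of functions. -/
def prodAlg (B : Subalgebra R (X → L)) (C : Subalgebra R (Y → L)) :
    Subalgebra R (X × Y → L) :=
  B.map (pull R L Prod.fst) ⊔ C.map (pull R L Prod.snd)

theorem map_pull_prodAlg_le {B : Subalgebra R (X → L)} {C : Subalgebra R (Y → L)}
    {B' : Subalgebra R (X' → L)} {C' : Subalgebra R (Y' → L)} {φ : X' → X} {ψ : Y' → Y}
    (hB : B.map (pull R L φ) ≤ B') (hC : C.map (pull R L ψ) ≤ C') :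
    (prodAlg B C).map (pull R L (Prod.map φ ψ)) ≤ prodAlg B' C' := by
  rw [prodAlg, Algebra.map_sup, Subalgebra.map_map, Subalgebra.map_map]
  refine sup_le_sup ?_ ?_
  · refine le_trans (le_of_eq ?_) (Subalgebra.map_mono hB)
    rw [Subalgebra.map_map]; rfl
  · refine le_trans (le_of_eq ?_) (Subalgebra.map_mono hC)
    rw [Subalgebra.map_map]; rfl

/-- An order of equivariant functions on `M` that is a model of `M`. -/
structure IsModel {M : Type} [AddCommGroup M] (act : (L ≃ₐ[K] L) → M → M)
    (B : Subalgebra R (M → L)) : Prop where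
  finite : Module.Finite R B
  equivariant : ∀ f ∈ B, IsEquivariant act f
  separates : ∀ x y : M, (∀ f ∈ B, f x = f y) → x = y
  comul_mem : ∀ f ∈ B, pull R L (fun z : M × M => z.1 + z.2) f ∈ prodAlg B B

end Defs

section Eval

variable {R L : Type} [CommRing R] [Field L] [Algebra R L]
variable {X Y : Type} {U V : Type} [CommRing U] [CommRing V] [Algebra R U] [Algebra R V]

/-- The map `U ⊗ V → (X × Y → L)`, `u ⊗ v ↦ φ u (x) * ψ v (y)`. -/
noncomputable def tmap (φ : U →ₐ[R] (X → L)) (ψ : V →ₐ[R] (Y → L)) :
    U ⊗[R] V →ₐ[R] (X × Y → L) :=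
  Algebra.TensorProduct.lift ((pull R L Prod.fst).comp φ) ((pull R L Prod.snd).comp ψ)
    fun _ _ => .all _ _

@[simp] theorem tmap_tmul (φ : U →ₐ[R] (X → L)) (ψ : V →ₐ[R] (Y → L)) (u : U) (v : V)
    (x : X) (y : Y) : tmap φ ψ (u ⊗ₜ v) (x, y) = φ u x * ψ v y := by
  simp [tmap]

theorem range_tmap (φ : U →ₐ[R] (X → L)) (ψ : V →ₐ[R] (Y → L)) :
    (tmap φ ψ).range = prodAlg φ.range ψ.range := by
  apply le_antisymm
  · rintro _ ⟨t, rfl⟩
    change tmap φ ψ t ∈ _
    induction t using TensorProduct.induction_on with
    | zero => rw [map_zero]; exact zero_mem _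
    | tmul u v =>
      have h : tmap φ ψ (u ⊗ₜ v) = pull R L Prod.fst (φ u) * pull R L Prod.snd (ψ v) := by
        funext z
        obtain ⟨x, y⟩ := z
        simp
      rw [h, prodAlg]
      exact mul_mem (le_sup_left (α := Subalgebra R _) ⟨φ u, ⟨u, rfl⟩, rfl⟩)
        (le_sup_right (α := Subalgebra R _) ⟨ψ v, ⟨v, rfl⟩, rfl⟩)
    | add a b ha hb => rw [map_add]; exact add_mem ha hb
  · refine sup_le ?_ ?_
    · rintro _ ⟨_, ⟨u, rfl⟩, rfl⟩
      exact ⟨u ⊗ₜ 1, by funext ⟨x, y⟩; simp⟩
    · rintro _ ⟨_, ⟨v, rfl⟩, rfl⟩
      exact ⟨1 ⊗ₜ v, by funext ⟨x, y⟩; simp⟩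

theorem range_tmap_val (B : Subalgebra R (X → L)) (C : Subalgebra R (Y → L)) :
    (tmap B.val C.val).range = prodAlg B C := by
  rw [range_tmap, Subalgebra.range_val, Subalgebra.range_val]

theorem prodAlg_finite (B : Subalgebra R (X → L)) (C : Subalgebra R (Y → L)) [Module.Finite R B]
    [Module.Finite R C] : Module.Finite R (prodAlg B C) := by
  rw [← range_tmap_val]
  exact Module.Finite.of_surjective (tmap B.val C.val).rangeRestrict.toLinearMap
    (tmap B.val C.val).rangeRestrict_surjective

theorem linearIndependent_tmap {ι κ : Type} (φ : U →ₐ[R] (X → L)) (ψ : V →ₐ[R] (Y → L))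
    (b : Module.Basis ι R U) (c : Module.Basis κ R V)
    (hb : LinearIndependent L fun i => φ (b i)) (hc : LinearIndependent L fun j => ψ (c j)) :
    LinearIndependent L fun i => tmap φ ψ (b.tensorProduct c i) := by
  classical
  rw [linearIndependent_iff'] at *
  intro s g hg
  let G : ι → κ → L := fun i j => if (i, j) ∈ s then g (i, j) else 0
  let sI := s.image Prod.fst
  let sJ := s.image Prod.snd
  have hval : ∀ x y, ∑ i ∈ sI, (∑ j ∈ sJ, G i j * ψ (c j) y) * φ (b i) x = 0 := by
    intro x y
    have h := congrFun hg (x, y)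
    simp only [Finset.sum_apply, Pi.smul_apply, smul_eq_mul, Pi.zero_apply] at h
    rw [← h]
    simp only [Finset.sum_mul]
    rw [← Finset.sum_product']
    refine (Finset.sum_subset_zero_on_sdiff ?_ ?_ ?_).symm
    · intro z hz
      exact Finset.mem_product.mpr
        ⟨Finset.mem_image_of_mem _ hz, Finset.mem_image_of_mem _ hz⟩
    · intro z hz
      simp [G, (Finset.mem_sdiff.mp hz).2]
    · rintro ⟨i, j⟩ hz
      simp only [Module.Basis.tensorProduct_apply, tmap_tmul, G, if_pos hz]
      ring
  intro z hz
  have h1 : ∀ y, ∀ i ∈ sI, ∑ j ∈ sJ, G i j * ψ (c j) y = 0 := fun y =>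
    hb sI (fun i => ∑ j ∈ sJ, G i j * ψ (c j) y) (by
      funext x
      simpa [Finset.sum_apply] using hval x y)
  have h2 := hc sJ (G z.1) (by
    funext y
    simpa [Finset.sum_apply] using h1 y z.1 (Finset.mem_image_of_mem _ hz)) z.2
      (Finset.mem_image_of_mem _ hz)
  simpa [G, hz] using h2

theorem tmap_injective {ι κ : Type} (φ : U →ₐ[R] (X → L)) (ψ : V →ₐ[R] (Y → L))
    (b : Module.Basis ι R U) (c : Module.Basis κ R V) [FaithfulSMul R L]
    (hb : LinearIndependent L fun i => φ (b i)) (hc : LinearIndependent L fun j => ψ (c j)) :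
    Function.Injective (tmap φ ψ) := by
  have hli : LinearIndependent R fun i => tmap φ ψ (b.tensorProduct c i) :=
    (linearIndependent_tmap φ ψ b c hb hc).restrict_scalars
      (fun r s h => FaithfulSMul.algebraMap_injective R L (by simpa [Algebra.smul_def] using h))
  intro t t' h
  rw [← sub_eq_zero] at h ⊢
  rw [← map_sub] at h
  generalize t - t' = d at h ⊢
  rw [← (b.tensorProduct c).linearCombination_repr d] at h ⊢
  rw [← AlgHom.toLinearMap_apply, Finsupp.apply_linearCombination] at h
  rw [linearIndependent_iff.mp hli _ h]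
  simp

end Eval

theorem faithfulSMul_of_tower (R K L : Type) [CommRing R] [Field K] [Field L] [Algebra R K]
    [Algebra K L] [Algebra R L] [IsFractionRing R K] [IsScalarTower R K L] :
    FaithfulSMul R L := by
  refine (faithfulSMul_iff_algebraMap_injective R L).mpr ?_
  rw [IsScalarTower.algebraMap_eq R K L]
  exact (algebraMap K L).injective.comp (IsFractionRing.injective R K)

theorem isTorsionFree_subalgebra {R : Type} (K : Type) {L X : Type} [CommRing R] [Field K]
    [Field L] [Algebra R K] [Algebra K L] [Algebra R L] [IsFractionRing R K]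
    [IsScalarTower R K L] (B : Subalgebra R (X → L)) : Module.IsTorsionFree R B := by
  have := faithfulSMul_of_tower R K L
  have : Nontrivial R := (algebraMap R K).domain_nontrivial
  refine ⟨fun r hr x y hxy => Subtype.ext (funext fun z => ?_)⟩
  have h := congrFun (congrArg Subtype.val hxy) z
  simp only [Algebra.smul_def] at h
  refine mul_left_cancel₀ ?_ h
  exact (map_ne_zero_iff _ (FaithfulSMul.algebraMap_injective R L)).mpr hr.ne_zero

namespace IsModel

variable {R K L : Type} [CommRing R] [Field K] [Field L] [Algebra K L] [Algebra R L]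
variable {M : Type} [AddCommGroup M] {act : (L ≃ₐ[K] L) → M → M} {B : Subalgebra R (M → L)}

theorem act_one (hB : IsModel K act B) (x : M) : act 1 x = x :=
  hB.separates _ _ fun f hf => by rw [hB.equivariant f hf]; rfl

theorem act_mul (hB : IsModel K act B) (σ τ : L ≃ₐ[K] L) (x : M) :
    act (σ * τ) x = act σ (act τ x) :=
  hB.separates _ _ fun f hf => by
    rw [hB.equivariant f hf (σ * τ) x, hB.equivariant f hf σ, hB.equivariant f hf τ]; rfl

theorem act_surjective (hB : IsModel K act B) (σ : L ≃ₐ[K] L) : Function.Surjective (act σ) :=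
  fun x => ⟨act σ⁻¹ x, by rw [← hB.act_mul, mul_inv_cancel, hB.act_one]⟩

theorem act_injective (hB : IsModel K act B) (σ : L ≃ₐ[K] L) : Function.Injective (act σ) :=
  fun x y h => by
    rw [← hB.act_one x, ← hB.act_one y, ← inv_mul_cancel σ, hB.act_mul, hB.act_mul, h]

theorem exists_tensor (hB : IsModel K act B) {f : M → L} (hf : f ∈ B) :
    ∃ t : B ⊗[R] B, ∀ x y, tmap B.val B.val t (x, y) = f (x + y) := by
  have h := hB.comul_mem f hf
  rw [← range_tmap_val] at h
  obtain ⟨t, ht⟩ := h
  exact ⟨t, fun x y => congrFun ht (x, y)⟩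

theorem act_add (hB : IsModel K act B) (σ : L ≃ₐ[K] L) (x y : M) :
    act σ (x + y) = act σ x + act σ y :=
  hB.separates _ _ fun f hf => by
    obtain ⟨t, ht⟩ := hB.exists_tensor hf
    rw [hB.equivariant f hf, ← ht, ← ht]
    clear ht
    induction t using TensorProduct.induction_on with
    | zero => simp
    | tmul u v => simp [hB.equivariant u u.2 σ x, hB.equivariant v v.2 σ y]
    | add a b ha hb => simp only [map_add, Pi.add_apply, map_add, ha, hb]

theorem act_zero (hB : IsModel K act B) (σ : L ≃ₐ[K] L) : act σ 0 = 0 := by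
  have h := hB.act_add σ 0 0
  rw [add_zero] at h
  exact left_eq_add.mp h

/-- The action of one Galois element as an additive equivalence. -/
noncomputable def actEquiv (hB : IsModel K act B) (σ : L ≃ₐ[K] L) : M ≃+ M :=
  AddEquiv.ofBijective (AddMonoidHom.mk' (act σ) (hB.act_add σ))
    ⟨hB.act_injective σ, hB.act_surjective σ⟩

section Basis

variable [IsDomain R] [IsPrincipalIdealRing R] [Algebra R K] [IsFractionRing R K]
  [IsScalarTower R K L]

theorem free (hB : IsModel K act B) : Module.Free R B := by
  have := hB.finite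
  have := isTorsionFree_subalgebra K B
  infer_instance

omit [IsDomain R] [IsPrincipalIdealRing R] in
theorem linearIndependent_coe [IsGalois K L] (hB : IsModel K act B) {ι : Type}
    (b : Module.Basis ι R B) : LinearIndependent L fun i => (b i : M → L) := by
  refine linearIndependent_of_equivariant (act := act) hB.act_surjective
    (fun i => hB.equivariant _ (b i).2) ?_
  rw [← LinearIndependent.iff_fractionRing R K]
  exact b.linearIndependent.map' B.val.toLinearMap
    (LinearMap.ker_eq_bot.mpr Subtype.val_injective)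

theorem finite_source (hB : IsModel K act B) : Finite M := by
  have := hB.finite
  have := hB.free
  refine Finite.of_injective (fun x => (Pi.evalAlgHom R (fun _ : M => L) x).comp B.val) ?_
  exact fun x y h => hB.separates x y fun f hf => DFunLike.congr_fun h ⟨f, hf⟩

theorem span_eq_top (hB : IsModel K act B) : Submodule.span L (B : Set (M → L)) = ⊤ := by
  have := hB.finite_source
  have h1 : Algebra.adjoin L (B : Set (M → L)) = ⊤ := by
    refine subalgebra_eq_top_of_separates _ fun x y hxy => ?_
    by_contra h
    push Not at h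
    exact hxy (hB.separates x y fun f hf => h f (Algebra.subset_adjoin hf))
  have h2 : Subalgebra.toSubmodule (Algebra.adjoin L (B : Set (M → L))) =
      Submodule.span L (B : Set (M → L)) := by
    rw [Algebra.adjoin_eq_span]
    congr 1
    exact congrArg SetLike.coe (Submonoid.closure_eq B.toSubmonoid)
  rw [← h2, h1, Algebra.top_toSubmodule]

/-- An `R`-basis of a model is an `L`-basis of all functions. -/
noncomputable def funBasis [IsGalois K L] (hB : IsModel K act B) {ι : Type}
    (b : Module.Basis ι R B) : Module.Basis ι L (M → L) :=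
  Module.Basis.mk (hB.linearIndependent_coe b) (by
    rw [← hB.span_eq_top, Submodule.span_le]
    intro f hf
    have hmem : (⟨f, hf⟩ : B) ∈ Submodule.span R (Set.range b) := b.mem_span _
    have h2 := Submodule.apply_mem_span_image_of_mem_span B.val.toLinearMap hmem
    rw [← Set.range_comp] at h2
    exact Submodule.span_le_restrictScalars R L _ h2)

@[simp] theorem funBasis_apply [IsGalois K L] (hB : IsModel K act B) {ι : Type}
    (b : Module.Basis ι R B) (i : ι) : hB.funBasis b i = (b i : M → L) :=
  Module.Basis.mk_apply _ _ i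

theorem tmap_val_injective [IsGalois K L] (hB : IsModel K act B) {Y V : Type} [CommRing V]
    [Algebra R V] (ψ : V →ₐ[R] (Y → L)) {κ : Type} (c : Module.Basis κ R V)
    (hc : LinearIndependent L fun j => ψ (c j)) : Function.Injective (tmap B.val ψ) := by
  have := hB.free
  have := faithfulSMul_of_tower R K L
  exact tmap_injective B.val ψ (Module.Free.chooseBasis R B) c
    (hB.linearIndependent_coe (Module.Free.chooseBasis R B)) hc

theorem exists_smul_mem [IsGalois K L] (hB : IsModel K act B) {f : M → L}
    (hf : IsEquivariant act f) : ∃ r : R, r ≠ 0 ∧ r • f ∈ B := by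
  classical
  have := hB.finite
  have := hB.free
  let b := Module.Free.chooseBasis R B
  let β := hB.funBasis b
  have hfix : ∀ i, β.repr f i ∈ Set.range (algebraMap K L) := by
    intro i
    rw [InfiniteGalois.mem_range_algebraMap_iff_fixed]
    intro σ
    have key : f = ∑ j, σ (β.repr f j) • β j := by
      funext x
      obtain ⟨y, rfl⟩ := hB.act_surjective σ x
      rw [hf σ y]
      conv_lhs => rw [← β.sum_repr f]
      simp only [Finset.sum_apply, Pi.smul_apply, smul_eq_mul, map_sum, map_mul]
      refine Finset.sum_congr rfl fun j _ => ?_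
      rw [hB.funBasis_apply, hB.equivariant _ (b j).2 σ y]
    have h2 := congrArg (fun g => β.repr g i) key
    simp only [map_sum, map_smul, Module.Basis.repr_self, Finsupp.smul_single, smul_eq_mul,
      mul_one, Finsupp.coe_finsetSum, Finset.sum_apply, Finsupp.single_apply,
      Finset.sum_ite_eq', Finset.mem_univ, if_true] at h2
    exact h2.symm
  choose k hk using hfix
  obtain ⟨r, hr⟩ := IsLocalization.exist_integer_multiples_of_finite (nonZeroDivisors R) k
  refine ⟨r, nonZeroDivisors.coe_ne_zero r, ?_⟩
  choose a ha using hr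
  have : (r : R) • f = ((∑ j, a j • b j : B) : M → L) := by
    rw [AddSubmonoidClass.coe_finsetSum]
    conv_lhs => rw [← β.sum_repr f, Finset.smul_sum]
    refine Finset.sum_congr rfl fun j _ => ?_
    rw [hB.funBasis_apply, SetLike.val_smul]
    funext x
    simp only [Pi.smul_apply, Algebra.smul_def, ← hk j,
      IsScalarTower.algebraMap_apply R K L, ha j]
    simp [mul_assoc]
  rw [this]
  exact SetLike.coe_mem _

end Basis

end IsModel

end Fermat.Agent.FFG
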