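import Mathlib.RingTheory.PrincipalIdealDomain
import Mathlib.RingTheory.Polynomial.RationalRoot
import Fermat.Agent.FFG.Basic

/-!
`HasFlatModel` is equivalent to the existence of a model (`IsModel`) inside equivariant functions.
-/

set_option autoImplicit false

open scoped TensorProduct

namespace Fermat.Agent.FFG

variable {R K L : Type} [CommRing R] [Field K] [Field L] [Algebra K L] [Algebra R L]
  [Algebra R K] [IsScalarTower R K L]
variable {M : Type} [AddCommGroup M] {act : (L ≃ₐ[K] L) → M → M}

/-- The image of a Hopf algebra in functions on its points is a model. -/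
theorem HasFlatModel.exists_isModel (h : HasFlatModel R K L act) :
    ∃ B : Subalgebra R (M → L), IsModel K act B := by
  obtain ⟨H, _, _, _, _, _, e, hadd, hact⟩ := h
  let ev : H →ₐ[R] (M → L) := AlgHom.pi (R := R) fun x => (e.symm x).ofConv
  have hev : ∀ h x, ev h x = (e.symm x) h := fun _ _ => rfl
  have heq : ∀ h, IsEquivariant act (ev h) := by
    intro h σ x
    let g : WithConv (H →ₐ[R] L) :=
      WithConv.toConv ((σ.toAlgHom.restrictScalars R).comp (e.symm x).ofConv)
    have hg := hact σ (e.symm x) g fun _ => rfl
    rw [Equiv.apply_symm_apply] at hg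
    rw [hev, hev, ← hg, Equiv.symm_apply_apply]
    rfl
  refine ⟨ev.range, ⟨?_, ?_, ?_, ?_⟩⟩
  · exact Module.Finite.of_surjective ev.rangeRestrict.toLinearMap ev.rangeRestrict_surjective
  · rintro _ ⟨h, rfl⟩
    exact heq h
  · intro x y hxy
    apply e.symm.injective
    apply WithConv.ofConv_injective
    ext h
    exact hxy (ev h) ⟨h, rfl⟩
  · rintro _ ⟨h, rfl⟩
    rw [← range_tmap_val]
    refine ⟨Algebra.TensorProduct.map ev.rangeRestrict ev.rangeRestrict (Coalgebra.comul h), ?_⟩
    funext z
    obtain ⟨x, y⟩ := z
    have hsum : e.symm (x + y) = e.symm x * e.symm y := by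
      apply e.injective
      simp [hadd]
    simp only [AlgHom.toRingHom_eq_coe, RingHom.coe_coe, pull_apply]
    change _ = (e.symm (x + y)) h
    rw [hsum, AlgHom.convMul_apply]
    generalize (Coalgebra.comul h : H ⊗[R] H) = t
    induction t using TensorProduct.induction_on with
    | zero => simp
    | tmul u v => simp [hev]
    | add a b ha hb => simp only [map_add, Pi.add_apply, ha, hb]

namespace IsModel

variable [IsDomain R] [IsPrincipalIdealRing R] [IsFractionRing R K] [IsGalois K L]
variable {B : Subalgebra R (M → L)}

/-- The value at zero of a function in a model lies in `R`. -/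
theorem apply_zero_mem_range (hB : IsModel K act B) (f : B) :
    (f : M → L) 0 ∈ (Algebra.ofId R L).range := by
  have hfix : (f : M → L) 0 ∈ Set.range (algebraMap K L) := by
    rw [InfiniteGalois.mem_range_algebraMap_iff_fixed]
    intro σ
    rw [← hB.equivariant f f.2 σ 0, hB.act_zero]
  obtain ⟨k, hk⟩ := hfix
  have := hB.finite
  have hint : IsIntegral R ((f : M → L) 0) :=
    (Algebra.IsIntegral.isIntegral (R := R) f).map ((Pi.evalAlgHom R (fun _ : M => L) 0).comp B.val)
  rw [← hk] at hint
  obtain ⟨r, hr⟩ := IsIntegrallyClosed.algebraMap_eq_of_integral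
    (hint.tower_bot (algebraMap K L).injective)
  refine ⟨r, ?_⟩
  rw [← hk, ← hr]
  exact IsScalarTower.algebraMap_apply R K L r

/-- Translations by multiples: `f (n • x)` stays in the model. -/
theorem pull_nsmul_mem (hB : IsModel K act B) :
    ∀ (n : ℕ) {f : M → L}, f ∈ B → pull R L (fun x : M => n • x) f ∈ B := by
  intro n
  induction n with
  | zero =>
    intro f hf
    obtain ⟨r, hr⟩ := hB.apply_zero_mem_range ⟨f, hf⟩
    have : pull R L (fun x : M => 0 • x) f = algebraMap R (M → L) r := by
      funext x
      simpa using hr.symm
    rw [this]
    exact B.algebraMap_mem r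
  | succ n ih =>
    intro f hf
    obtain ⟨t, ht⟩ := hB.exists_tensor hf
    have : pull R L (fun x : M => (n + 1) • x) f =
        pull R L (fun x : M => (n • x, x)) (tmap B.val B.val t) := by
      funext x
      simp [ht, succ_nsmul]
    rw [this]
    clear this ht
    induction t using TensorProduct.induction_on with
    | zero => rw [map_zero, map_zero]; exact zero_mem B
    | tmul u v =>
      have : pull R L (fun x : M => (n • x, x)) (tmap B.val B.val (u ⊗ₜ v)) =
          pull R L (fun x : M => n • x) u * v := by funext x; simp
      rw [this]
      exact mul_mem (ih u.2) v.2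
    | add a b ha hb => rw [map_add, map_add]; exact add_mem ha hb

theorem pull_neg_mem (hB : IsModel K act B) {f : M → L} (hf : f ∈ B) :
    pull R L (fun x : M => -x) f ∈ B := by
  have := hB.finite_source
  have : (fun x : M => -x) = fun x : M => (Nat.card M - 1) • x := by
    funext x
    rw [neg_eq_iff_add_eq_zero, ← succ_nsmul', Nat.sub_add_cancel Nat.card_pos, card_nsmul_eq_zero']
  rw [this]
  exact hB.pull_nsmul_mem _ hf

theorem tmap_self_injective (hB : IsModel K act B) :
    Function.Injective (tmap B.val B.val) := by
  have := hB.finite
  have := hB.free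
  exact hB.tmap_val_injective B.val (Module.Free.chooseBasis R B)
    (hB.linearIndependent_coe _)

theorem tmap_triple_injective (hB : IsModel K act B) :
    Function.Injective (tmap B.val (tmap B.val B.val)) := by
  have := hB.finite
  have := hB.free
  let b := Module.Free.chooseBasis R B
  exact hB.tmap_val_injective _ (b.tensorProduct b)
    (linearIndependent_tmap B.val B.val b b (hB.linearIndependent_coe b)
      (hB.linearIndependent_coe b))

/-- Comultiplication on a model. -/
noncomputable def comulHom (hB : IsModel K act B) : B →ₐ[R] B ⊗[R] B :=
  (AlgEquiv.ofInjective _ hB.tmap_self_injective).symm.toAlgHom.comp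
    (((pull R L (fun z : M × M => z.1 + z.2)).comp B.val).codRestrict _ fun f => by
      rw [range_tmap_val]; exact hB.comul_mem f f.2)

theorem tmap_comulHom (hB : IsModel K act B) (f : B) (x y : M) :
    tmap B.val B.val (hB.comulHom f) (x, y) = (f : M → L) (x + y) := by
  let E := AlgEquiv.ofInjective _ hB.tmap_self_injective
  let w : (tmap B.val B.val).range :=
    ((pull R L (fun z : M × M => z.1 + z.2)).comp B.val).codRestrict _ (fun f => by
      rw [range_tmap_val]; exact hB.comul_mem f f.2) f
  have h : E (E.symm w) = w := E.apply_symm_apply w
  exact congrFun (congrArg Subtype.val h) (x, y)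

/-- Counit on a model: evaluation at zero. -/
noncomputable def counitHom (hB : IsModel K act B) : B →ₐ[R] R :=
  have hinj : Function.Injective (Algebra.ofId R L) :=
    (faithfulSMul_iff_algebraMap_injective R L).mp (faithfulSMul_of_tower R K L)
  (AlgEquiv.ofInjective _ hinj).symm.toAlgHom.comp
    (((Pi.evalAlgHom R (fun _ : M => L) 0).comp B.val).codRestrict _ hB.apply_zero_mem_range)

theorem algebraMap_counitHom (hB : IsModel K act B) (f : B) :
    algebraMap R L (hB.counitHom f) = (f : M → L) 0 := by
  have hinj : Function.Injective (Algebra.ofId R L) :=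
    (faithfulSMul_iff_algebraMap_injective R L).mp (faithfulSMul_of_tower R K L)
  let E := AlgEquiv.ofInjective _ hinj
  let w : (Algebra.ofId R L).range :=
    ((Pi.evalAlgHom R (fun _ : M => L) 0).comp B.val).codRestrict _ hB.apply_zero_mem_range f
  have h : E (E.symm w) = w := E.apply_symm_apply w
  exact congrArg Subtype.val h

/-- The bialgebra structure on a model. -/
@[reducible] noncomputable def bialgebra (hB : IsModel K act B) : Bialgebra R B :=
  Bialgebra.ofAlgHom hB.comulHom hB.counitHom
    (by
      refine AlgHom.ext fun f => hB.tmap_triple_injective (funext fun ⟨x, y, z⟩ => ?_)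
      have e1 : ∀ (u : B ⊗[R] B) (c : B),
          tmap B.val (tmap B.val B.val) (Algebra.TensorProduct.assoc R R R B B B (u ⊗ₜ c))
            (x, y, z) = tmap B.val B.val u (x, y) * (c : M → L) z := by
        intro u c
        induction u using TensorProduct.induction_on with
        | zero => simp [TensorProduct.zero_tmul]
        | tmul a b => simp [mul_assoc]
        | add a b ha hb => simp [TensorProduct.add_tmul, ha, hb, add_mul]
      have e2 : ∀ t : B ⊗[R] B,
          tmap B.val (tmap B.val B.val)
            (Algebra.TensorProduct.assoc R R R B B B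
              (Algebra.TensorProduct.map hB.comulHom (.id R B) t)) (x, y, z) =
            tmap B.val B.val t (x + y, z) := by
        intro t
        induction t using TensorProduct.induction_on with
        | zero => simp
        | tmul a b => simp [e1, hB.tmap_comulHom]
        | add a b ha hb => simp [ha, hb]
      have e3 : ∀ t : B ⊗[R] B,
          tmap B.val (tmap B.val B.val)
            (Algebra.TensorProduct.map (.id R B) hB.comulHom t) (x, y, z) =
            tmap B.val B.val t (x, y + z) := by
        intro t
        induction t using TensorProduct.induction_on with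
        | zero => simp
        | tmul a b => simp [hB.tmap_comulHom]
        | add a b ha hb => simp [ha, hb]
      simp only [AlgHom.comp_apply, AlgEquiv.coe_toAlgHom, e2, e3, hB.tmap_comulHom, add_assoc])
    (by
      refine AlgHom.ext fun f => ?_
      have key : ∀ t : B ⊗[R] B, ∀ y,
          ((Algebra.TensorProduct.lid R B
            (Algebra.TensorProduct.map hB.counitHom (.id R B) t) : B) : M → L) y =
            tmap B.val B.val t (0, y) := by
        intro t y
        induction t using TensorProduct.induction_on with
        | zero => simp
        | tmul a b => simp [Algebra.smul_def, hB.algebraMap_counitHom]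
        | add a b ha hb => simp [ha, hb]
      apply (Algebra.TensorProduct.lid R B).injective
      refine Subtype.ext (funext fun y => ?_)
      simp only [AlgHom.comp_apply, AlgEquiv.coe_toAlgHom, AlgEquiv.apply_symm_apply, key,
        hB.tmap_comulHom, zero_add])
    (by
      refine AlgHom.ext fun f => ?_
      have key : ∀ t : B ⊗[R] B, ∀ y,
          ((Algebra.TensorProduct.rid R R B
            (Algebra.TensorProduct.map (.id R B) hB.counitHom t) : B) : M → L) y =
            tmap B.val B.val t (y, 0) := by
        intro t y
        induction t using TensorProduct.induction_on with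
        | zero => simp
        | tmul a b => simp [Algebra.smul_def, hB.algebraMap_counitHom, mul_comm]
        | add a b ha hb => simp [ha, hb]
      apply (Algebra.TensorProduct.rid R R B).injective
      refine Subtype.ext (funext fun y => ?_)
      simp only [AlgHom.comp_apply, AlgEquiv.coe_toAlgHom, AlgEquiv.apply_symm_apply, key,
        hB.tmap_comulHom, add_zero])

/-- Antipode on a model. -/
noncomputable def antipodeHom (hB : IsModel K act B) : B →ₐ[R] B :=
  ((pull R L (fun x : M => -x)).comp B.val).codRestrict B fun f => hB.pull_neg_mem f.2

/-- The Hopf algebra structure on a model. -/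
@[reducible] noncomputable def hopfAlgebra (hB : IsModel K act B) : HopfAlgebra R B :=
  letI := hB.bialgebra
  { antipode := hB.antipodeHom.toLinearMap
    mul_antipode_rTensor_comul := by
      refine LinearMap.ext fun f => Subtype.ext (funext fun x => ?_)
      change ((LinearMap.mul' R B (hB.antipodeHom.toLinearMap.rTensor B (hB.comulHom f)) : B) :
        M → L) x = ((algebraMap R B (hB.counitHom f) : B) : M → L) x
      have key : ∀ t : B ⊗[R] B,
          ((LinearMap.mul' R B (hB.antipodeHom.toLinearMap.rTensor B t) : B) : M → L) x =
            tmap B.val B.val t (-x, x) := by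
        intro t
        induction t using TensorProduct.induction_on with
        | zero => simp
        | tmul a b => simp [antipodeHom]
        | add a b ha hb => simp [ha, hb]
      rw [key, hB.tmap_comulHom, neg_add_cancel, ← hB.algebraMap_counitHom]
      rfl
    mul_antipode_lTensor_comul := by
      refine LinearMap.ext fun f => Subtype.ext (funext fun x => ?_)
      change ((LinearMap.mul' R B (hB.antipodeHom.toLinearMap.lTensor B (hB.comulHom f)) : B) :
        M → L) x = ((algebraMap R B (hB.counitHom f) : B) : M → L) x
      have key : ∀ t : B ⊗[R] B,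
          ((LinearMap.mul' R B (hB.antipodeHom.toLinearMap.lTensor B t) : B) : M → L) x =
            tmap B.val B.val t (x, -x) := by
        intro t
        induction t using TensorProduct.induction_on with
        | zero => simp
        | tmul a b => simp [antipodeHom]
        | add a b ha hb => simp [ha, hb]
      rw [key, hB.tmap_comulHom, add_neg_cancel, ← hB.algebraMap_counitHom]
      rfl }

theorem hasFlatModel (hB : IsModel K act B) : HasFlatModel R K L act := by
  have := hB.finite
  have := hB.free
  have := hB.finite_source
  let _ := hB.hopfAlgebra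
  have hcomm : Coalgebra.IsCocomm R B := ⟨by
    refine LinearMap.ext fun f => hB.tmap_self_injective (funext fun ⟨x, y⟩ => ?_)
    have key : ∀ t : B ⊗[R] B,
        tmap B.val B.val (TensorProduct.comm R B B t) (x, y) = tmap B.val B.val t (y, x) := by
      intro t
      induction t using TensorProduct.induction_on with
      | zero => simp
      | tmul a b => simp [mul_comm]
      | add a b ha hb => simp [ha, hb]
    change tmap B.val B.val (TensorProduct.comm R B B (hB.comulHom f)) (x, y) =
      tmap B.val B.val (hB.comulHom f) (x, y)
    rw [key, hB.tmap_comulHom, hB.tmap_comulHom, add_comm]⟩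
  let ev : M → WithConv (B →ₐ[R] L) := fun x =>
    WithConv.toConv ((Pi.evalAlgHom R (fun _ : M => L) x).comp B.val)
  have hev : ∀ x (f : B), ev x f = (f : M → L) x := fun _ _ => rfl
  have hinj : Function.Injective ev := fun x y h =>
    hB.separates x y fun f hf => congrArg (fun φ => φ (⟨f, hf⟩ : B)) h
  have hsurj : Function.Surjective ev := by
    intro φ
    classical
    let b := Module.Free.chooseBasis R B
    let β := hB.funBasis b
    let P : (M → L) →ₗ[L] L := β.constr L fun i => φ (b i)
    have hP : ∀ f : B, P (f : M → L) = φ f := by
      have : (P.restrictScalars R).comp B.val.toLinearMap = φ.ofConv.toLinearMap := by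
        apply b.ext
        intro i
        change P (b i : M → L) = φ (b i)
        rw [← hB.funBasis_apply b i]
        exact β.constr_basis L _ i
      exact fun f => LinearMap.congr_fun this f
    have h1 : P 1 = 1 := by
      have := hP 1
      rwa [map_one φ.ofConv] at this
    have hmul : ∀ u v, P (u * v) = P u * P v := by
      have : (LinearMap.mul L (M → L)).compr₂ P =
          ((LinearMap.mul L L).comp P).compl₂ P := by
        refine β.ext fun i => β.ext fun j => ?_
        simp only [LinearMap.compr₂_apply, LinearMap.mul_apply', LinearMap.compl₂_apply,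
          LinearMap.comp_apply, hB.funBasis_apply, β]
        have := hP (b i * b j)
        rw [map_mul φ.ofConv] at this
        rw [hP, hP]
        exact this
      exact fun u v => LinearMap.congr_fun₂ this u v
    obtain ⟨x, hx⟩ := exists_eval_of_algHom (AlgHom.ofLinearMap P h1 hmul)
    refine ⟨x, ?_⟩
    apply WithConv.ofConv_injective
    ext f
    exact ((hP f).symm.trans (hx f)).symm
  let e : WithConv (B →ₐ[R] L) ≃ M := (Equiv.ofBijective ev ⟨hinj, hsurj⟩).symm
  refine ⟨B, inferInstance, inferInstance, inferInstance, inferInstance, hcomm, e, ?_, ?_⟩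
  · intro φ ψ
    apply e.symm.injective
    rw [Equiv.symm_apply_apply]
    apply WithConv.ofConv_injective
    ext f
    have hφ : φ = ev (e φ) := (e.symm_apply_apply φ).symm
    have hψ : ψ = ev (e ψ) := (e.symm_apply_apply ψ).symm
    conv_lhs => rw [hφ, hψ]
    change (ev (e φ) * ev (e ψ)) f = ev (e φ + e ψ) f
    rw [AlgHom.convMul_apply, hev, ← hB.tmap_comulHom]
    change Algebra.TensorProduct.lift _ _ _ (hB.comulHom f) = _
    generalize hB.comulHom f = t
    induction t using TensorProduct.induction_on with
    | zero => simp
    | tmul u v => simp [hev]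
    | add a b ha hb => simp only [map_add, Pi.add_apply, ha, hb]
  · intro σ φ ψ h
    apply e.symm.injective
    rw [Equiv.symm_apply_apply]
    apply WithConv.ofConv_injective
    ext f
    have hφ : φ = ev (e φ) := (e.symm_apply_apply φ).symm
    change ψ f = (f : M → L) (act σ (e φ))
    rw [h, hB.equivariant f f.2]
    conv_lhs => rw [hφ]
    rfl

end IsModel

theorem hasFlatModel_iff [IsDomain R] [IsPrincipalIdealRing R] [IsFractionRing R K]
    [IsGalois K L] :
    HasFlatModel R K L act ↔ ∃ B : Subalgebra R (M → L), IsModel K act B :=
  ⟨HasFlatModel.exists_isModel, fun ⟨_, hB⟩ => hB.hasFlatModel⟩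

end Fermat.Agent.FFG
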