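import Mathlib.RingTheory.Noetherian.Basic
import Mathlib.Algebra.Module.Projective
import Mathlib.Data.Set.Card
import Fermat.Agent.FFG.Equivalence

/-!
Closure properties of finite flat models: sub-objects, quotients, products, trivial module.
-/

set_option autoImplicit false

open scoped TensorProduct

namespace Fermat.Agent.FFG

variable {R K L : Type} [CommRing R] [Field K] [Field L] [Algebra K L] [Algebra R L]
variable {M N Q : Type} [AddCommGroup M] [AddCommGroup N] [AddCommGroup Q]
variable {act : (L ≃ₐ[K] L) → M → M} {actN : (L ≃ₐ[K] L) → N → N}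
  {actQ : (L ≃ₐ[K] L) → Q → Q}

namespace IsModel

/-- Restriction of a model to a Galois stable subgroup (schematic closure). -/
theorem map_of_injective {B : Subalgebra R (M → L)} (hB : IsModel K act B) (f : N →+ M)
    (hf : Function.Injective f) (hcompat : ∀ σ x, f (actN σ x) = act σ (f x)) :
    IsModel K actN (B.map (pull R L f)) where
  finite := by
    have := hB.finite
    exact Module.Finite.map (Subalgebra.toSubmodule B) (pull R L f).toLinearMap
  equivariant := by
    rintro _ ⟨g, hg, rfl⟩ σ x
    simp [hcompat, hB.equivariant g hg σ]
  separates x y h := hf (hB.separates _ _ fun g hg => h _ ⟨g, hg, rfl⟩)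
  comul_mem := by
    rintro _ ⟨g, hg, rfl⟩
    refine map_pull_prodAlg_le (φ := f) (ψ := f) le_rfl le_rfl
      ⟨_, hB.comul_mem g hg, ?_⟩
    funext z
    simp

/-- Product of two models. -/
theorem prod {B : Subalgebra R (M → L)} (hB : IsModel K act B) {C : Subalgebra R (N → L)}
    (hC : IsModel K actN C) :
    IsModel K (fun σ (z : M × N) => (act σ z.1, actN σ z.2)) (prodAlg B C) where
  finite := by
    have := hB.finite
    have := hC.finite
    exact prodAlg_finite B C
  equivariant f hf := by
    intro σ z
    rw [← range_tmap_val] at hf
    obtain ⟨t, rfl⟩ := hf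
    obtain ⟨x, y⟩ := z
    change tmap B.val C.val t (act σ x, actN σ y) = σ (tmap B.val C.val t (x, y))
    induction t using TensorProduct.induction_on with
    | zero => simp
    | tmul u v => simp [hB.equivariant u u.2 σ x, hC.equivariant v v.2 σ y]
    | add a b ha hb => simp only [map_add, Pi.add_apply, ha, hb]
  separates z w h := Prod.ext
    (hB.separates _ _ fun f hf => h (pull R L Prod.fst f) (le_sup_left (α := Subalgebra R _) ⟨f, hf, rfl⟩))
    (hC.separates _ _ fun f hf => h (pull R L Prod.snd f) (le_sup_right (α := Subalgebra R _) ⟨f, hf, rfl⟩))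
  comul_mem := by
    suffices h : prodAlg B C ≤
        (prodAlg (prodAlg B C) (prodAlg B C)).comap
          (pull R L (fun z : (M × N) × (M × N) => z.1 + z.2)) from fun f hf => h hf
    refine sup_le ?_ ?_
    · rintro _ ⟨g, hg, rfl⟩
      exact map_pull_prodAlg_le (φ := (Prod.fst : M × N → M)) (ψ := (Prod.fst : M × N → M))
        le_sup_left le_sup_left ⟨_, hB.comul_mem g hg, rfl⟩
    · rintro _ ⟨g, hg, rfl⟩
      exact map_pull_prodAlg_le (φ := (Prod.snd : M × N → N)) (ψ := (Prod.snd : M × N → N))
        le_sup_right le_sup_right ⟨_, hC.comul_mem g hg, rfl⟩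

theorem trivial [Subsingleton M] [Algebra R K] [IsScalarTower R K L]
    (act : (L ≃ₐ[K] L) → M → M) : IsModel (R := R) K act ⊥ where
  finite := inferInstance
  equivariant f hf := by
    intro σ x
    obtain ⟨r, rfl⟩ := Algebra.mem_bot.mp hf
    simp [IsScalarTower.algebraMap_apply R K L r]
  separates x y _ := Subsingleton.elim x y
  comul_mem f hf := by
    obtain ⟨r, rfl⟩ := Algebra.mem_bot.mp hf
    rw [AlgHom.commutes]
    exact Subalgebra.algebraMap_mem _ r

section Quotient

variable [IsDomain R] [IsPrincipalIdealRing R] [Algebra R K] [IsFractionRing R K]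
  [IsScalarTower R K L] [IsGalois K L] [CharZero L]

/-- The model of a quotient: functions in the model that factor through the quotient map. -/
theorem comap_of_surjective {B : Subalgebra R (M → L)} (hB : IsModel K act B) (π : M →+ Q)
    (hπ : Function.Surjective π) (hcompat : ∀ σ x, π (act σ x) = actQ σ (π x)) :
    IsModel K actQ (B.comap (pull R L π)) := by
  classical
  have := hB.finite
  have := hB.free
  have := hB.finite_source
  have := Fintype.ofFinite M
  have hpinj : Function.Injective (pull R L π) := fun g g' h => by
    funext q
    obtain ⟨x, rfl⟩ := hπ q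
    exact congrFun h x
  set B' := B.comap (pull R L π) with hB'
  let incl : B' →ₐ[R] B := ((pull R L π).comp B'.val).codRestrict B fun g => g.2
  have hincl : Function.Injective incl := fun g g' h =>
    Subtype.ext (hpinj (congrArg Subtype.val h))
  have hfin : Module.Finite R B' := Module.Finite.of_injective incl.toLinearMap hincl
  -- the sum over a fibre
  let S : (M → L) →ₗ[L] (M → L) :=
    { toFun := fun g x => ∑ n : π.ker, g (x + n)
      map_add' := fun g g' => by funext x; simp [Finset.sum_add_distrib]
      map_smul' := fun c g => by funext x; simp [Finset.mul_sum] }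
  have hSfactor : ∀ g : M → L, ∃ g' : Q → L, pull R L π g' = S g := by
    intro g
    refine ⟨fun q => S g (Function.surjInv hπ q), funext fun x => ?_⟩
    simp only [pull_apply]
    let d : π.ker := ⟨Function.surjInv hπ (π x) - x, by
      simp [AddMonoidHom.mem_ker, Function.surjInv_eq hπ]⟩
    change ∑ n : π.ker, g (_ + n) = ∑ n : π.ker, g (x + n)
    refine Fintype.sum_equiv (Equiv.addLeft d) _ _ fun n => ?_
    simp [d, ← add_assoc]
  have hSeq : ∀ g : M → L, IsEquivariant act g → IsEquivariant act (S g) := by
    intro g hg σ x
    let τ : π.ker ≃ π.ker :=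
      { toFun := fun n => ⟨hB.actEquiv σ n, by
          change π (act σ n) = 0
          have h0 := hB.act_zero σ
          rw [hcompat, AddMonoidHom.mem_ker.mp n.2, ← π.map_zero, ← hcompat, h0]⟩
        invFun := fun n => ⟨(hB.actEquiv σ).symm n, by
          change π ((hB.actEquiv σ).symm n) = 0
          have h1 : act σ⁻¹ (n : M) = (hB.actEquiv σ).symm n := by
            rw [AddEquiv.eq_symm_apply]
            change act σ (act σ⁻¹ n) = n
            rw [← hB.act_mul, mul_inv_cancel, hB.act_one]
          rw [← h1, hcompat, AddMonoidHom.mem_ker.mp n.2, ← π.map_zero, ← hcompat, hB.act_zero]⟩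
        left_inv := fun n => by simp
        right_inv := fun n => by simp }
    change ∑ n : π.ker, g (act σ x + n) = σ (∑ n : π.ker, g (x + n))
    rw [map_sum]
    refine (Fintype.sum_equiv τ _ _ fun n => ?_).symm
    rw [← hg σ, hB.act_add]
    rfl
  have hspan : Submodule.span L (B' : Set (Q → L)) = ⊤ := by
    rw [eq_top_iff]
    intro h _
    let P : (Q → L) →ₗ[L] (M → L) :=
      { toFun := fun g => g ∘ π, map_add' := fun _ _ => rfl, map_smul' := fun _ _ => rfl }
    have hPinj : Function.Injective P := fun g g' hgg => hpinj hgg
    have key : S (P h) ∈ (Submodule.span L (B' : Set (Q → L))).map P := by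
      have hle : Submodule.span L (B : Set (M → L)) ≤
          ((Submodule.span L (B' : Set (Q → L))).map P).comap S := by
        rw [Submodule.span_le]
        intro g hg
        obtain ⟨r, hr0, hr⟩ := hB.exists_smul_mem (hSeq g (hB.equivariant g hg))
        obtain ⟨g', hg'⟩ := hSfactor g
        have hmem : r • g' ∈ B' := by
          change pull R L π (r • g') ∈ B
          rw [map_smul, hg']
          exact hr
        have h1 : (algebraMap R L r)⁻¹ • (r • g') = g' := by
          have := faithfulSMul_of_tower R K L
          have h0 : algebraMap R L r ≠ 0 :=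
            (map_ne_zero_iff _ (FaithfulSMul.algebraMap_injective R L)).mpr hr0
          rw [← algebraMap_smul L r g', inv_smul_smul₀ h0]
        refine ⟨g', ?_, hg'⟩
        rw [← h1]
        exact Submodule.smul_mem _ _ (Submodule.subset_span hmem)
      exact hle (hB.span_eq_top ▸ Submodule.mem_top)
    have hS : S (P h) = (Nat.card π.ker : L) • P h := by
      funext x
      simp [S, P, AddMonoidHom.mem_ker.mp (SetLike.coe_mem _), Nat.card_eq_fintype_card]
    rw [hS] at key
    obtain ⟨g', hg', hgeq⟩ := key
    rw [← map_smul] at hgeq
    have hne : (Nat.card π.ker : L) ≠ 0 := Nat.cast_ne_zero.mpr Nat.card_pos.ne'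
    have := Submodule.smul_mem _ (Nat.card π.ker : L)⁻¹ hg'
    rwa [hPinj hgeq, inv_smul_smul₀ hne] at this
  refine ⟨hfin, ?_, ?_, ?_⟩
  · intro g hg σ q
    obtain ⟨x, rfl⟩ := hπ q
    rw [← hcompat]
    exact hB.equivariant _ hg σ x
  · intro q q' h
    by_contra hne
    have hle : Submodule.span L (B' : Set (Q → L)) ≤
        LinearMap.ker ((LinearMap.proj q : (Q → L) →ₗ[L] L) - LinearMap.proj q') := by
      rw [Submodule.span_le]
      intro g hg
      simp [h g hg]
    have h1 := hle (hspan ▸ Submodule.mem_top : Pi.single q (1 : L) ∈ _)
    simp [Ne.symm hne] at h1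
  · intro g hg
    -- a retraction of `B` onto the functions that factor through `π`
    let I : Submodule R B := LinearMap.range incl.toLinearMap
    have : Module.IsTorsionFree R (B ⧸ I) := by
      refine ⟨fun r hr a b hab => ?_⟩
      obtain ⟨a, rfl⟩ := Submodule.Quotient.mk_surjective I a
      obtain ⟨b, rfl⟩ := Submodule.Quotient.mk_surjective I b
      simp only [← Submodule.Quotient.mk_smul, Submodule.Quotient.eq] at hab
      have hab : r • (a - b) ∈ I := by rw [smul_sub]; exact hab
      rw [Submodule.Quotient.eq]
      generalize a - b = c at hab ⊢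
      obtain ⟨w, hw⟩ := hab
      have := faithfulSMul_of_tower R K L
      have h0 : algebraMap R L r ≠ 0 :=
        (map_ne_zero_iff _ (FaithfulSMul.algebraMap_injective R L)).mpr hr.ne_zero
      have hval : ((algebraMap R L r)⁻¹ • (w : Q → L)) ∘ π = (c : M → L) := by
        funext x
        have := congrFun (congrArg Subtype.val hw) x
        change (w : Q → L) (π x) = r • (c : M → L) x at this
        simp [this, Algebra.smul_def, h0]
      exact ⟨⟨(algebraMap R L r)⁻¹ • (w : Q → L), by
        change ((algebraMap R L r)⁻¹ • (w : Q → L)) ∘ π ∈ B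
        rw [hval]
        exact c.2⟩, Subtype.ext hval⟩
    obtain ⟨s, hs⟩ := Module.projective_lifting_property I.mkQ LinearMap.id I.mkQ_surjective
    let proj : B →ₗ[R] B := LinearMap.id - s ∘ₗ I.mkQ
    have hproj : ∀ c, proj c ∈ I := by
      intro c
      rw [← Submodule.Quotient.mk_eq_zero, ← Submodule.mkQ_apply]
      have := LinearMap.congr_fun hs (I.mkQ c)
      simp only [LinearMap.comp_apply, LinearMap.id_apply] at this
      simp only [Submodule.mkQ_apply] at this
      simp [proj, this]
    have hprojI : ∀ c ∈ I, proj c = c := by
      intro c hc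
      simp [proj, (Submodule.Quotient.mk_eq_zero I).mpr hc]
    let β := hB.funBasis (Module.Free.chooseBasis R B)
    let P : (M → L) →ₗ[L] (M → L) :=
      β.constr L fun i => (proj (Module.Free.chooseBasis R B i) : M → L)
    have hP : ∀ c : B, P (c : M → L) = (proj c : M → L) := by
      have : (P.restrictScalars R).comp B.val.toLinearMap = B.val.toLinearMap.comp proj := by
        apply (Module.Free.chooseBasis R B).ext
        intro i
        change P (Module.Free.chooseBasis R B i : M → L) = _
        rw [← hB.funBasis_apply (Module.Free.chooseBasis R B) i]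
        exact β.constr_basis L _ i
      exact fun c => LinearMap.congr_fun this c
    have hPfix : ∀ h : Q → L, P (h ∘ π) = h ∘ π := by
      let Pπ : (Q → L) →ₗ[L] (M → L) :=
        { toFun := fun g => g ∘ π, map_add' := fun _ _ => rfl, map_smul' := fun _ _ => rfl }
      intro h
      have hle : Submodule.span L (B' : Set (Q → L)) ≤
          LinearMap.eqLocus (P ∘ₗ Pπ) Pπ := by
        rw [Submodule.span_le]
        intro c hc
        change P (c ∘ π) = c ∘ π
        have h1 := hP (incl ⟨c, hc⟩)
        rw [hprojI (incl ⟨c, hc⟩) ⟨⟨c, hc⟩, rfl⟩] at h1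
        exact h1
      exact hle (hspan ▸ Submodule.mem_top : h ∈ _)
    obtain ⟨t, ht⟩ := hB.exists_tensor (f := pull R L π g) hg
    simp only [pull_apply, map_add] at ht
    -- project the first variable
    have h1 : ∀ x y, tmap B.val B.val (TensorProduct.map proj LinearMap.id t) (x, y) =
        g (π x + π y) := by
      intro x y
      have key : ∀ u : B ⊗[R] B, tmap B.val B.val (TensorProduct.map proj LinearMap.id u) (x, y) =
          P (fun x' => tmap B.val B.val u (x', y)) x := by
        intro u
        induction u using TensorProduct.induction_on with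
        | zero =>
          rw [map_zero, map_zero]
          exact (congrFun P.map_zero x).symm
        | tmul a b =>
          have : (fun x' => tmap B.val B.val (a ⊗ₜ[R] b) (x', y)) =
              ((b : M → L) y) • (a : M → L) := by funext x'; simp [mul_comm]
          rw [this, map_smul, hP]
          simp [mul_comm]
        | add a b ha hb =>
          rw [map_add, map_add, Pi.add_apply, ha, hb, ← Pi.add_apply, ← map_add]
          refine congrArg (fun F => P F x) (funext fun x' => ?_)
          simp
      have hF : (fun x' => tmap B.val B.val t (x', y)) = (fun q => g (q + π y)) ∘ π := by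
        funext x'; simp [ht]
      rw [key, hF, hPfix]
      rfl
    -- project the second variable
    have h2 : ∀ x y,
        tmap B.val B.val (TensorProduct.map proj proj t) (x, y) = g (π x + π y) := by
      intro x y
      have key : ∀ u : B ⊗[R] B, tmap B.val B.val (TensorProduct.map proj proj u) (x, y) =
          P (fun y' => tmap B.val B.val (TensorProduct.map proj LinearMap.id u) (x, y')) y := by
        intro u
        induction u using TensorProduct.induction_on with
        | zero =>
          simp only [map_zero]
          exact (congrFun P.map_zero y).symm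
        | tmul a b =>
          have : (fun y' => tmap B.val B.val (TensorProduct.map proj LinearMap.id (a ⊗ₜ[R] b))
              (x, y')) = ((proj a : B) : M → L) x • (b : M → L) := by funext y'; simp
          rw [this, map_smul, hP]
          simp
        | add a b ha hb =>
          rw [map_add, map_add, Pi.add_apply, ha, hb, ← Pi.add_apply, ← map_add]
          refine congrArg (fun F => P F y) (funext fun y' => ?_)
          simp
      have hF : (fun y' => tmap B.val B.val (TensorProduct.map proj LinearMap.id t) (x, y')) =
          (fun q => g (π x + q)) ∘ π := by funext y'; simp [h1]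
      rw [key, hF, hPfix]
      rfl
    -- pull the tensor back to the quotient
    let incl' : B' ≃ₗ[R] I := LinearEquiv.ofInjective incl.toLinearMap hincl
    let back : B →ₗ[R] B' := incl'.symm.toLinearMap ∘ₗ proj.codRestrict I hproj
    have hback : ∀ (a : B) x, ((back a : B') : Q → L) (π x) = ((proj a : B) : M → L) x := by
      intro a x
      have : incl' (back a) = ⟨proj a, hproj a⟩ := incl'.apply_symm_apply _
      exact congrFun (congrArg (fun c : I => ((c : B) : M → L)) this) x
    rw [← range_tmap_val]
    refine ⟨TensorProduct.map back back t, ?_⟩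
    funext z
    obtain ⟨q, q'⟩ := z
    obtain ⟨x, rfl⟩ := hπ q
    obtain ⟨y, rfl⟩ := hπ q'
    change tmap B'.val B'.val (TensorProduct.map back back t) (π x, π y) = g (π x + π y)
    rw [← h2]
    clear ht h1 h2
    induction t using TensorProduct.induction_on with
    | zero => simp
    | tmul a b => simp [hback]
    | add a b ha hb => simp only [map_add, Pi.add_apply, ha, hb]

end Quotient

end IsModel

section HasFlatModel

variable [IsDomain R] [IsPrincipalIdealRing R] [Algebra R K] [IsFractionRing R K]
  [IsScalarTower R K L] [IsGalois K L]

/-- A Galois stable subgroup of a module with a finite flat model has one. -/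
theorem HasFlatModel.of_injective (h : HasFlatModel R K L act) (f : N →+ M)
    (hf : Function.Injective f) (hcompat : ∀ σ x, f (actN σ x) = act σ (f x)) :
    HasFlatModel R K L actN :=
  let ⟨_, hB⟩ := h.exists_isModel
  (hB.map_of_injective f hf hcompat).hasFlatModel

/-- A quotient of a module with a finite flat model has one. -/
theorem HasFlatModel.of_surjective [CharZero L] (h : HasFlatModel R K L act) (π : M →+ Q)
    (hπ : Function.Surjective π) (hcompat : ∀ σ x, π (act σ x) = actQ σ (π x)) :
    HasFlatModel R K L actQ :=
  let ⟨_, hB⟩ := h.exists_isModel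
  (hB.comap_of_surjective π hπ hcompat).hasFlatModel

/-- Transport along an equivariant additive equivalence. -/
theorem HasFlatModel.of_equiv (h : HasFlatModel R K L act) (e : N ≃+ M)
    (hcompat : ∀ σ x, e (actN σ x) = act σ (e x)) : HasFlatModel R K L actN :=
  h.of_injective e.toAddMonoidHom e.injective hcompat

theorem HasFlatModel.prod (h : HasFlatModel R K L act) (h' : HasFlatModel R K L actN) :
    HasFlatModel R K L fun σ (z : M × N) => (act σ z.1, actN σ z.2) :=
  let ⟨_, hB⟩ := h.exists_isModel
  let ⟨_, hC⟩ := h'.exists_isModel
  (hB.prod hC).hasFlatModel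

theorem HasFlatModel.of_subsingleton [Subsingleton M] (act : (L ≃ₐ[K] L) → M → M) :
    HasFlatModel R K L act :=
  (IsModel.trivial act).hasFlatModel

omit [IsDomain R] [IsPrincipalIdealRing R] [IsFractionRing R K] [IsGalois K L] in
theorem HasFlatModel.act_add (h : HasFlatModel R K L act) (σ : L ≃ₐ[K] L) (x y : M) :
    act σ (x + y) = act σ x + act σ y :=
  let ⟨_, hB⟩ := h.exists_isModel
  hB.act_add σ x y

omit [IsGalois K L] in
theorem HasFlatModel.finite (h : HasFlatModel R K L act) : Finite M :=
  let ⟨_, hB⟩ := h.exists_isModel
  hB.finite_source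

theorem HasFlatModel.finPow (h : HasFlatModel R K L act) : ∀ n : ℕ,
    HasFlatModel R K L fun σ (v : Fin n → M) i => act σ (v i)
  | 0 => HasFlatModel.of_subsingleton _
  | n + 1 => (h.prod (HasFlatModel.finPow h n)).of_equiv
      { toFun := fun v => (v 0, Fin.tail v)
        invFun := fun z => Fin.cons z.1 z.2
        left_inv := fun v => Fin.cons_self_tail v
        right_inv := fun z => by simp
        map_add' := fun _ _ => rfl }
      fun _ _ => rfl

end HasFlatModel

end Fermat.Agent.FFG
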