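import Mathlib.RingTheory.Localization.FractionRing
import Mathlib.RingTheory.Localization.Submodule
import Mathlib.FieldTheory.IsAlgClosed.AlgebraicClosure
import Mathlib.FieldTheory.Perfect
import Fermat.Prelude.Def_GaloisRep_Flat
import Fermat.Agent.FFG.Closure

/-!
Finite flat models over `GaloisRep.ratLocalizedAt p` with values in `AlgebraicClosure ℚ`.
-/

set_option autoImplicit false

namespace Fermat.Agent.FFG

instance isGalois_ratAlgClosure : IsGalois ℚ (AlgebraicClosure ℚ) :=
  have : Algebra.IsAlgebraic ℚ (AlgebraicClosure ℚ) := AlgebraicClosure.isAlgebraic ℚ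
  have : Normal ℚ (AlgebraicClosure ℚ) := normal_iff.mpr fun x =>
    ⟨Algebra.IsIntegral.isIntegral x, IsAlgClosed.splits _⟩
  ⟨⟩

theorem isLocalization_ratLocalizedAt (p : ℕ) :
    IsFractionRing (GaloisRep.ratLocalizedAt p) ℚ := by
  refine IsFractionRing.of_field _ ℚ fun z => ?_
  refine ⟨⟨(z.num : ℚ), ?_⟩, ⟨(z.den : ℚ), ?_⟩, ?_⟩
  · exact intCast_mem _ _
  · exact natCast_mem _ _
  · exact (Rat.num_div_den z).symm

instance isFractionRing_ratLocalizedAt (p : ℕ) : IsFractionRing (GaloisRep.ratLocalizedAt p) ℚ :=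
  isLocalization_ratLocalizedAt p

instance isPrincipalIdealRing_ratLocalizedAt (p : ℕ) :
    IsPrincipalIdealRing (GaloisRep.ratLocalizedAt p) where
  principal I := by
    refine ⟨?_⟩
    let J : Ideal ℤ := I.comap (Int.castRingHom (GaloisRep.ratLocalizedAt p))
    obtain ⟨g, hg⟩ := (IsPrincipalIdealRing.principal J).principal
    refine ⟨(g : GaloisRep.ratLocalizedAt p), le_antisymm (fun x hx => ?_) ?_⟩
    · have hden : ((x : ℚ).den : ℚ)⁻¹ ∈ GaloisRep.ratLocalizedAt p := by
        change ((((x : ℚ).den : ℚ))⁻¹).den.Coprime p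
        rw [Rat.inv_natCast_den_of_pos (x : ℚ).den_pos]
        exact x.2
      have hnum : (x : ℚ).num ∈ J := by
        change ((x : ℚ).num : GaloisRep.ratLocalizedAt p) ∈ I
        have : ((x : ℚ).num : GaloisRep.ratLocalizedAt p) =
            ((x : ℚ).den : GaloisRep.ratLocalizedAt p) * x :=
          Subtype.ext (by simp [mul_comm, Rat.mul_den_eq_num])
        rw [this]
        exact I.mul_mem_left _ hx
      rw [hg, Ideal.submodule_span_eq, Ideal.mem_span_singleton'] at hnum
      obtain ⟨a, ha⟩ := hnum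
      refine Submodule.mem_span_singleton.mpr ⟨⟨(a : ℚ) * ((x : ℚ).den : ℚ)⁻¹,
        mul_mem (intCast_mem _ a) hden⟩, ?_⟩
      refine Subtype.ext ?_
      have hx' : (((x : ℚ).den : ℚ)) ≠ 0 := Nat.cast_ne_zero.mpr (x : ℚ).den_nz
      have h1 : (a : ℚ) * (g : ℚ) = (x : ℚ) * ((x : ℚ).den : ℚ) := by
        rw [← Int.cast_mul, ha, Rat.mul_den_eq_num]
      change (a : ℚ) * ((x : ℚ).den : ℚ)⁻¹ * _ = (x : ℚ)
      simp only [SubringClass.coe_intCast]
      field_simp
      linarith
    · rw [Submodule.span_le, Set.singleton_subset_iff]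
      exact show g ∈ J from hg ▸ Submodule.mem_span_singleton_self g

/-- `M` with the action `act` of the absolute Galois group of `ℚ` has a finite flat model over
`ℤ_(p)`. -/
def HasFlatModelAt (p : ℕ) {M : Type} [AddCommGroup M]
    (act : (AlgebraicClosure ℚ ≃ₐ[ℚ] AlgebraicClosure ℚ) → M → M) : Prop :=
  HasFlatModel (GaloisRep.ratLocalizedAt p) ℚ (AlgebraicClosure ℚ) act

section API

variable {p : ℕ} {M N Q : Type} [AddCommGroup M] [AddCommGroup N] [AddCommGroup Q]
  {act : (AlgebraicClosure ℚ ≃ₐ[ℚ] AlgebraicClosure ℚ) → M → M}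
  {actN : (AlgebraicClosure ℚ ≃ₐ[ℚ] AlgebraicClosure ℚ) → N → N}
  {actQ : (AlgebraicClosure ℚ ≃ₐ[ℚ] AlgebraicClosure ℚ) → Q → Q}

theorem HasFlatModelAt.of_injective (h : HasFlatModelAt p act) (f : N →+ M)
    (hf : Function.Injective f) (hcompat : ∀ σ x, f (actN σ x) = act σ (f x)) :
    HasFlatModelAt p actN :=
  HasFlatModel.of_injective h f hf hcompat

theorem HasFlatModelAt.of_surjective (h : HasFlatModelAt p act) (π : M →+ Q)
    (hπ : Function.Surjective π) (hcompat : ∀ σ x, π (act σ x) = actQ σ (π x)) :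
    HasFlatModelAt p actQ :=
  HasFlatModel.of_surjective h π hπ hcompat

theorem HasFlatModelAt.of_equiv (h : HasFlatModelAt p act) (e : N ≃+ M)
    (hcompat : ∀ σ x, e (actN σ x) = act σ (e x)) : HasFlatModelAt p actN :=
  HasFlatModel.of_equiv h e hcompat

theorem HasFlatModelAt.prod (h : HasFlatModelAt p act) (h' : HasFlatModelAt p actN) :
    HasFlatModelAt p fun σ (z : M × N) => (act σ z.1, actN σ z.2) :=
  HasFlatModel.prod h h'

theorem HasFlatModelAt.finPow (h : HasFlatModelAt p act) (n : ℕ) :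
    HasFlatModelAt p fun σ (v : Fin n → M) i => act σ (v i) :=
  HasFlatModel.finPow h n

theorem HasFlatModelAt.of_subsingleton [Subsingleton M]
    (act : (AlgebraicClosure ℚ ≃ₐ[ℚ] AlgebraicClosure ℚ) → M → M) : HasFlatModelAt p act :=
  HasFlatModel.of_subsingleton act

/-- A subquotient of a module with a finite flat model has one. -/
theorem HasFlatModelAt.subquotient (h : HasFlatModelAt p act) (W : AddSubgroup M)
    (hW : ∀ σ, ∀ x ∈ W, act σ x ∈ W) (π : W →+ Q) (hπ : Function.Surjective π)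
    (hcompat : ∀ σ (x : W), π ⟨act σ x, hW σ x x.2⟩ = actQ σ (π x)) :
    HasFlatModelAt p actQ :=
  (h.of_injective (actN := fun σ (x : W) => ⟨act σ x, hW σ x x.2⟩) W.subtype
    Subtype.val_injective fun _ _ => rfl).of_surjective π hπ hcompat

end API

/-- `IsFlatAt` in terms of `HasFlatModelAt`. -/
theorem isFlatAt_iff {A : Type} [CommRing A] [IsLocalRing A] (ρ : GaloisRepAdic A) (p : ℕ) :
    ρ.IsFlatAt p ↔ Finite (IsLocalRing.ResidueField A) ∧ ∀ I : Ideal A, Finite (A ⧸ I) →
      HasFlatModelAt p fun σ x => ρ.levelAction I σ x :=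
  Iff.rfl

end Fermat.Agent.FFG
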