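import Mathlib.Algebra.Group.ForwardDiff
import Mathlib.RingTheory.Valuation.Integral
import Mathlib.Data.Nat.Choose.Dvd
import Fermat.Agent.FFG.Equivalence

/-!
The kernel of reduction of a finite flat model: torsion points that are close to the origin.
-/

set_option autoImplicit false

open scoped TensorProduct fwdDiff

namespace Fermat.Agent.FFG

namespace IsModel

variable {R K L : Type} [CommRing R] [Field K] [Field L] [Algebra K L] [Algebra R L]
variable {M : Type} [AddCommGroup M] {act : (L ≃ₐ[K] L) → M → M} {B : Subalgebra R (M → L)}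
variable {Γ₀ : Type} [LinearOrderedCommGroupWithZero Γ₀] {v : Valuation L Γ₀}

theorem isIntegral_value (hB : IsModel K act B) {f : M → L} (hf : f ∈ B) (x : M) :
    IsIntegral R (f x) := by
  have := hB.finite
  exact (Algebra.IsIntegral.isIntegral (R := R) (⟨f, hf⟩ : B)).map
    ((Pi.evalAlgHom R (fun _ : M => L) x).comp B.val)

/-- Functions in a model have values in the valuation ring. -/
theorem valuation_le_one (hB : IsModel K act B) (hR : ∀ r, v (algebraMap R L r) ≤ 1)
    {f : M → L} (hf : f ∈ B) (x : M) : v (f x) ≤ 1 := by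
  let _ : Algebra R v.integer := ((algebraMap R L).codRestrict v.integer hR).toAlgebra
  have : IsScalarTower R v.integer L := IsScalarTower.of_algebraMap_eq fun _ => rfl
  exact Valuation.Integers.mem_of_integral (Valuation.integer.integers v)
    ((hB.isIntegral_value hf x).tower_top)

/-- If all functions of the model move at most `μ` from `0` to `x`, then `k`-fold differences in
the direction `x` are at most `μ ^ k`. -/
theorem valuation_fwdDiff_iterate_le (hB : IsModel K act B)
    (hR : ∀ r, v (algebraMap R L r) ≤ 1) (x : M) (μ : Γ₀)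
    (hμ : ∀ f ∈ B, v (f x - f 0) ≤ μ) :
    ∀ (k : ℕ) {f : M → L}, f ∈ B → ∀ y, v (Δ_[x] ^[k] f y) ≤ μ ^ k := by
  intro k
  induction k with
  | zero => intro f hf y; simpa using hB.valuation_le_one hR hf y
  | succ k ih =>
    intro f hf y
    obtain ⟨t, ht⟩ := hB.exists_tensor hf
    rw [Function.iterate_succ_apply]
    have h1 : Δ_[x] f = fun y => tmap B.val B.val t (x, y) - tmap B.val B.val t (0, y) := by
      funext y
      rw [ht, ht, zero_add, fwdDiff, add_comm]
    rw [h1]
    clear h1 ht
    induction t using TensorProduct.induction_on with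
    | zero => simp [fwdDiff_iter_eq_sum_shift]
    | tmul a b =>
      have : (fun y => tmap B.val B.val (a ⊗ₜ[R] b) (x, y) - tmap B.val B.val (a ⊗ₜ[R] b) (0, y)) =
          ((a : M → L) x - (a : M → L) 0) • (b : M → L) := by
        funext y; simp [sub_mul]
      rw [this, fwdDiff_iter_const_smul]
      simp only [Pi.smul_apply, smul_eq_mul, map_mul, pow_succ']
      exact mul_le_mul' (hμ _ a.2) (ih b.2 y)
    | add a b ha hb =>
      have : (fun y => tmap B.val B.val (a + b) (x, y) - tmap B.val B.val (a + b) (0, y)) =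
          (fun y => tmap B.val B.val a (x, y) - tmap B.val B.val a (0, y)) +
            fun y => tmap B.val B.val b (x, y) - tmap B.val B.val b (0, y) := by
        funext y; simp [Pi.add_apply]; ring
      rw [this, fwdDiff_iter_add, Pi.add_apply]
      exact (v.map_add _ _).trans (max_le ha hb)

theorem valuation_apply_nsmul_sub_le (hB : IsModel K act B)
    (hR : ∀ r, v (algebraMap R L r) ≤ 1) (x : M) (μ : Γ₀)
    (hμ : ∀ f ∈ B, v (f x - f 0) ≤ μ) {f : M → L} (hf : f ∈ B) :
    ∀ n : ℕ, v (f (n • x) - f 0) ≤ μ := by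
  intro n
  induction n with
  | zero => simp
  | succ n ih =>
    have h := hB.valuation_fwdDiff_iterate_le hR x μ hμ 1 hf (n • x)
    rw [Function.iterate_one, fwdDiff, pow_one] at h
    rw [succ_nsmul, show f (n • x + x) - f 0 = (f (n • x + x) - f (n • x)) + (f (n • x) - f 0) by ring]
    exact (v.map_add _ _).trans (max_le h ih)

theorem exists_max_congr (hB : IsModel K act B) (hR : ∀ r, v (algebraMap R L r) ≤ 1) (x : M) :
    ∃ g₀ ∈ B, ∀ f ∈ B, v (f x - f 0) ≤ v (g₀ x - g₀ 0) := by
  classical
  have hfg : (Subalgebra.toSubmodule B).FG := Module.Finite.iff_fg.mp hB.finite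
  obtain ⟨s, hs⟩ := hfg
  have hμ : ∀ f ∈ B, v (f x - f 0) ≤ s.sup fun g => v (g x - g 0) := by
    intro f hf
    rw [← Subalgebra.mem_toSubmodule, ← hs] at hf
    induction hf using Submodule.span_induction with
    | mem g hg => exact Finset.le_sup (f := fun g => v (g x - g 0)) hg
    | zero => simp
    | add g g' _ _ hg hg' =>
      rw [Pi.add_apply, Pi.add_apply, show g x + g' x - (g 0 + g' 0) =
        (g x - g 0) + (g' x - g' 0) by ring]
      exact (v.map_add _ _).trans (max_le hg hg')
    | smul r g _ hg =>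
      rw [Pi.smul_apply, Pi.smul_apply, ← smul_sub, Algebra.smul_def, map_mul]
      exact (mul_le_of_le_one_left' (hR r)).trans hg
  rcases s.eq_empty_or_nonempty with hse | hne
  · exact ⟨0, zero_mem B, fun f hf => (hμ f hf).trans (by rw [hse, Finset.sup_empty]; exact bot_le)⟩
  obtain ⟨g₀, hg₀, hg₀eq⟩ := Finset.exists_mem_eq_sup s hne fun g => v (g x - g 0)
  refine ⟨g₀, ?_, fun f hf => (hμ f hf).trans hg₀eq.le⟩
  rw [← Subalgebra.mem_toSubmodule, ← hs]
  exact Submodule.subset_span hg₀

/-- A point killed by `p` which is congruent to the origin with exponent more than `1/(p-1)`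
is the origin. -/
theorem eq_zero_of_congr_of_prime (hB : IsModel K act B)
    (hR : ∀ r, v (algebraMap R L r) ≤ 1) {p : ℕ} (hp : p.Prime) {x : M} (hx : p • x = 0)
    (h : ∀ f ∈ B, v (f x - f 0) ^ (p - 1) < v (p : L)) : x = 0 := by
  obtain ⟨g₀, hg₀, hμ⟩ := hB.exists_max_congr hR x
  set μ : Γ₀ := v (g₀ x - g₀ 0) with hμeq
  have hp1 : v (p : L) ≤ 1 := by simpa using hR p
  rcases eq_or_ne μ 0 with hμ0 | hμ0
  · refine hB.separates x 0 fun f hf => sub_eq_zero.mp ?_
    simpa [hμ0] using hμ f hf
  have hpow : μ ^ (p - 1) < v (p : L) := h g₀ hg₀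
  have hμ1 : μ < 1 := by
    by_contra hge
    exact absurd ((hpow.trans_le hp1).trans_le (one_le_pow₀ (not_lt.mp hge))) (lt_irrefl _)
  have hvp : v (p : L) ≠ 0 := fun h0 => by simp [h0] at hpow
  have hk := hB.valuation_fwdDiff_iterate_le hR x μ hμ
  have hmain : v ((p : L) * (g₀ x - g₀ 0)) < v (p : L) * μ := by
    have hshift := shift_eq_sum_fwdDiff_iter x g₀ p 0
    rw [zero_add, hx] at hshift
    have hsum : ∑ k ∈ Finset.range (p + 1), (p.choose k) • Δ_[x] ^[k] g₀ 0 =
        g₀ 0 + (p : L) * (g₀ x - g₀ 0) +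
          ∑ k ∈ Finset.Ico 2 (p + 1), (p.choose k) • Δ_[x] ^[k] g₀ 0 := by
      rw [Finset.range_eq_Ico, Finset.sum_eq_sum_Ico_succ_bot (by omega),
        Finset.sum_eq_sum_Ico_succ_bot (by have := hp.two_le; omega)]
      simp [fwdDiff, nsmul_eq_mul]
      ring
    rw [hsum] at hshift
    have heq : (p : L) * (g₀ x - g₀ 0) =
        -∑ k ∈ Finset.Ico 2 (p + 1), (p.choose k) • Δ_[x] ^[k] g₀ 0 := by
      linear_combination -hshift
    rw [heq, Valuation.map_neg]
    refine v.map_sum_lt (mul_ne_zero hvp hμ0) fun k hk' => ?_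
    obtain ⟨hk2, hkp⟩ := Finset.mem_Ico.mp hk'
    rw [nsmul_eq_mul, map_mul]
    rcases eq_or_lt_of_le (Nat.lt_succ_iff.mp hkp) with rfl | hlt
    · rw [Nat.choose_self, Nat.cast_one, map_one, one_mul]
      refine (hk k hg₀ 0).trans_lt ?_
      rw [show k = (k - 1) + 1 by omega, pow_succ]
      rw [show k - 1 + 1 = k by omega]
      exact mul_lt_mul_of_pos_right hpow (zero_lt_iff.mpr hμ0)
    · obtain ⟨c, hc⟩ := hp.dvd_choose_self (by omega) hlt
      rw [hc, Nat.cast_mul, map_mul, mul_assoc]
      refine mul_lt_mul_of_pos_left ?_ (zero_lt_iff.mpr hvp)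
      refine (mul_le_of_le_one_left' (by simpa using hR c)).trans_lt ?_
      refine (hk k hg₀ 0).trans_lt ?_
      calc μ ^ k ≤ μ ^ 2 := pow_le_pow_right_of_le_one' hμ1.le hk2
        _ < μ := by
          rw [pow_two]
          exact mul_lt_of_lt_one_left (zero_lt_iff.mpr hμ0) hμ1
  rw [map_mul] at hmain
  exact absurd hmain (lt_irrefl _)

/-- A `p`-power torsion point congruent to the origin with exponent more than `1/(p-1)` is the
origin. -/
theorem eq_zero_of_congr (hB : IsModel K act B) (hR : ∀ r, v (algebraMap R L r) ≤ 1) {p : ℕ}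
    (hp : p.Prime) : ∀ {n : ℕ} {x : M}, p ^ n • x = 0 →
      (∀ f ∈ B, v (f x - f 0) ^ (p - 1) < v (p : L)) → x = 0 := by
  intro n
  induction n with
  | zero => intro x hx _; simpa using hx
  | succ n ih =>
    intro x hx h
    rw [pow_succ, mul_smul] at hx
    refine hB.eq_zero_of_congr_of_prime hR hp (ih hx fun f hf => ?_) h
    obtain ⟨g₀, hg₀, hμ⟩ := hB.exists_max_congr hR x
    exact lt_of_le_of_lt (pow_le_pow_left' (hB.valuation_apply_nsmul_sub_le hR x _ hμ hf p) _)
      (h g₀ hg₀)

end IsModel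

end Fermat.Agent.FFG
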