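import Fermat.Agent.FFG.Closure
import Fermat.Agent.FFG.Reduction
import Mathlib.GroupTheory.OrderOfElement

/-!
The kernel of reduction of a finite flat model at a valuation, and its behaviour under inertia.
-/

set_option autoImplicit false

open scoped TensorProduct fwdDiff

namespace Fermat.Agent.FFG

namespace IsModel

variable {R K L : Type} [CommRing R] [Field K] [Field L] [Algebra K L] [Algebra R L]
variable {M N Q : Type} [AddCommGroup M] [AddCommGroup N] [AddCommGroup Q]
variable {act : (L ≃ₐ[K] L) → M → M} {B : Subalgebra R (M → L)}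
variable [Finite M]
variable {Γ₀ : Type} [LinearOrderedCommGroupWithZero Γ₀] {v : Valuation L Γ₀}

/-- The points of a model reducing to the origin. -/
def reductionKernel (hB : IsModel K act B) (hR : ∀ r, v (algebraMap R L r) ≤ 1) : AddSubgroup M where
  carrier := {x | ∀ f ∈ B, v (f x - f 0) < 1}
  zero_mem' f _ := by simp
  add_mem' {x y} hx hy f hf := by
    obtain ⟨t, ht⟩ := hB.exists_tensor hf
    have key : ∀ u : B ⊗[R] B,
        v (tmap B.val B.val u (x, y) - tmap B.val B.val u (0, 0)) < 1 := by
      intro u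
      induction u using TensorProduct.induction_on with
      | zero => simp
      | tmul a b =>
        have h1 : v (((a : M → L) x - (a : M → L) 0) * (b : M → L) y) < 1 := by
          rw [map_mul]
          exact (mul_le_of_le_one_right' (hB.valuation_le_one hR b.2 y)).trans_lt (hx a a.2)
        have h2 : v ((a : M → L) 0 * ((b : M → L) y - (b : M → L) 0)) < 1 := by
          rw [map_mul]
          exact (mul_le_of_le_one_left' (hB.valuation_le_one hR a.2 0)).trans_lt (hy b b.2)
        have heq : tmap B.val B.val (a ⊗ₜ[R] b) (x, y) - tmap B.val B.val (a ⊗ₜ[R] b) (0, 0) =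
            ((a : M → L) x - (a : M → L) 0) * (b : M → L) y +
              (a : M → L) 0 * ((b : M → L) y - (b : M → L) 0) := by simp; ring
        rw [heq]
        exact v.map_add_lt h1 h2
      | add a b ha hb =>
        rw [map_add, Pi.add_apply, Pi.add_apply,
          show tmap B.val B.val a (x, y) + tmap B.val B.val b (x, y) -
            (tmap B.val B.val a (0, 0) + tmap B.val B.val b (0, 0)) =
            (tmap B.val B.val a (x, y) - tmap B.val B.val a (0, 0)) +
            (tmap B.val B.val b (x, y) - tmap B.val B.val b (0, 0)) by ring]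
        exact v.map_add_lt ha hb
    have := key t
    rwa [ht, ht, zero_add] at this
  neg_mem' {x} hx f hf := by
    obtain ⟨g₀, hg₀, hμ⟩ := hB.exists_max_congr hR x
    have hneg : -x = (addOrderOf x - 1) • x := by
      rw [neg_eq_iff_add_eq_zero, ← succ_nsmul', Nat.sub_add_cancel (addOrderOf_pos x),
        addOrderOf_nsmul_eq_zero]
    rw [hneg]
    exact (hB.valuation_apply_nsmul_sub_le hR x _ hμ hf _).trans_lt (hx g₀ hg₀)

theorem mem_reductionKernel (hB : IsModel K act B) (hR : ∀ r, v (algebraMap R L r) ≤ 1) {x : M} :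
    x ∈ hB.reductionKernel hR ↔ ∀ f ∈ B, v (f x - f 0) < 1 :=
  Iff.rfl

theorem act_mem_reductionKernel (hB : IsModel K act B) (hR : ∀ r, v (algebraMap R L r) ≤ 1)
    {σ : L ≃ₐ[K] L} (hσ : ∀ z, v z < 1 → v (σ z) < 1) {x : M}
    (hx : x ∈ hB.reductionKernel hR) : act σ x ∈ hB.reductionKernel hR := fun f hf => by
  conv => enter [1, 2, 2]; rw [← hB.act_zero σ]
  rw [hB.equivariant f hf σ, hB.equivariant f hf σ, ← map_sub]
  exact hσ _ (hx f hf)

/-- Elements of inertia move points only within the kernel of reduction. -/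
theorem act_sub_self_mem_reductionKernel (hB : IsModel K act B)
    (hR : ∀ r, v (algebraMap R L r) ≤ 1) {σ : L ≃ₐ[K] L}
    (hσ : ∀ z, v z ≤ 1 → v (σ z - z) < 1) (x : M) :
    act σ x - x ∈ hB.reductionKernel hR := by
  intro f hf
  obtain ⟨t, ht⟩ := hB.exists_tensor hf
  have key : ∀ u : B ⊗[R] B, ∀ z,
      v (tmap B.val B.val u (act σ x, z) - tmap B.val B.val u (x, z)) < 1 := by
    intro u z
    induction u using TensorProduct.induction_on with
    | zero => simp
    | tmul a b =>
      simp only [tmap_tmul, Subalgebra.coe_val, ← sub_mul, map_mul]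
      rw [hB.equivariant a a.2 σ x]
      exact (mul_le_of_le_one_right' (hB.valuation_le_one hR b.2 z)).trans_lt
        (hσ _ (hB.valuation_le_one hR a.2 x))
    | add a b ha hb =>
      rw [map_add, Pi.add_apply, Pi.add_apply,
        show tmap B.val B.val a (act σ x, z) + tmap B.val B.val b (act σ x, z) -
          (tmap B.val B.val a (x, z) + tmap B.val B.val b (x, z)) =
          (tmap B.val B.val a (act σ x, z) - tmap B.val B.val a (x, z)) +
          (tmap B.val B.val b (act σ x, z) - tmap B.val B.val b (x, z)) by ring]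
      exact v.map_add_lt ha hb
  have := key t (-x)
  rwa [ht, ht, ← sub_eq_add_neg, add_neg_cancel] at this

/-- A point of the kernel of reduction of order prime to the residue characteristic is zero. -/
theorem eq_zero_of_mem_reductionKernel_of_unit (hB : IsModel K act B)
    (hR : ∀ r, v (algebraMap R L r) ≤ 1) {n : ℕ} (hn0 : n ≠ 0) (hn : v (n : L) = 1) {x : M}
    (hx : x ∈ hB.reductionKernel hR) (hnx : n • x = 0) : x = 0 := by
  induction n using Nat.recOnMul generalizing x with
  | zero => exact absurd rfl hn0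
  | one => simpa using hnx
  | prime p hp =>
    refine hB.eq_zero_of_congr_of_prime hR hp hnx fun f hf => ?_
    rw [hn]
    exact pow_lt_one' (hx f hf) (by have := hp.two_le; omega)
  | mul a b iha ihb =>
    obtain ⟨ha, hb⟩ := mul_ne_zero_iff.mp hn0
    rw [Nat.cast_mul, map_mul] at hn
    have ha1 : v (a : L) ≤ 1 := by simpa using hR a
    have hb1 : v (b : L) ≤ 1 := by simpa using hR b
    have hva : v (a : L) = 1 := le_antisymm ha1 (hn ▸ mul_le_of_le_one_right' hb1)
    have hvb : v (b : L) = 1 := by rwa [hva, one_mul] at hn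
    rw [mul_smul] at hnx
    exact ihb hb hvb hx (iha ha hva (AddSubgroup.nsmul_mem _ hx b) hnx)

/-- Inertia acts trivially on a model of order prime to the residue characteristic. -/
theorem act_eq_self_of_unit (hB : IsModel K act B) (hR : ∀ r, v (algebraMap R L r) ≤ 1)
    {n : ℕ} (hn0 : n ≠ 0) (hn : v (n : L) = 1) {σ : L ≃ₐ[K] L}
    (hσ : ∀ z, v z ≤ 1 → v (σ z - z) < 1) {x : M} (hnx : n • x = 0) : act σ x = x := by
  refine sub_eq_zero.mp (hB.eq_zero_of_mem_reductionKernel_of_unit hR hn0 hn
    (hB.act_sub_self_mem_reductionKernel hR hσ x) ?_)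
  have h1 : act σ (n • x) = n • act σ x := map_nsmul (AddMonoidHom.mk' (act σ) (hB.act_add σ)) n x
  rw [nsmul_sub, ← h1, hnx, hB.act_zero, sub_self]

/-- With absolute ramification index one (`hdisc`) and `p` odd, a `p`-power torsion point of the
kernel of reduction with values fixed by `I` is zero. -/
theorem eq_zero_of_mem_reductionKernel_of_fixed (hB : IsModel K act B)
    (hR : ∀ r, v (algebraMap R L r) ≤ 1) {p : ℕ} (hp : p.Prime) (hp2 : p ≠ 2)
    (hp0 : v (p : L) ≠ 0) (hp1 : v (p : L) < 1) {I : Set (L ≃ₐ[K] L)}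
    (hdisc : ∀ z, (∀ σ ∈ I, σ z = z) → v z < 1 → v z ≤ v (p : L)) {n : ℕ} {x : M}
    (hx : x ∈ hB.reductionKernel hR) (hnx : p ^ n • x = 0) (hfix : ∀ σ ∈ I, act σ x = x) :
    x = 0 := by
  refine hB.eq_zero_of_congr hR hp hnx fun f hf => ?_
  have h := hdisc _ (fun σ hσ => ?_) (hx f hf)
  · refine (pow_le_pow_left' h _).trans_lt ?_
    calc v (p : L) ^ (p - 1) < v (p : L) ^ 1 :=
          pow_lt_pow_right_of_lt_one₀ (zero_lt_iff.mpr hp0) hp1
            (by have := hp.two_le; omega)
      _ = v (p : L) := pow_one _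
  · rw [map_sub, ← hB.equivariant f hf σ, ← hB.equivariant f hf σ, hfix σ hσ, hB.act_zero]

theorem reductionKernel_map_of_injective {actN : (L ≃ₐ[K] L) → N → N} (hB : IsModel K act B)
    (hR : ∀ r, v (algebraMap R L r) ≤ 1) (f : N →+ M) (hf : Function.Injective f)
    (hcompat : ∀ σ x, f (actN σ x) = act σ (f x)) :
    haveI := Finite.of_injective f hf
    (hB.map_of_injective f hf hcompat).reductionKernel hR = (hB.reductionKernel hR).comap f := by
  ext x
  simp only [mem_reductionKernel, AddSubgroup.mem_comap]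
  constructor
  · intro h g hg
    simpa using h _ ⟨g, hg, rfl⟩
  · rintro h _ ⟨g, hg, rfl⟩
    simpa using h g hg

theorem map_reductionKernel_le [IsDomain R] [IsPrincipalIdealRing R] [Algebra R K]
    [IsFractionRing R K] [IsScalarTower R K L] [IsGalois K L] [CharZero L]
    {actQ : (L ≃ₐ[K] L) → Q → Q} (hB : IsModel K act B) (hR : ∀ r, v (algebraMap R L r) ≤ 1)
    (π : M →+ Q) (hπ : Function.Surjective π) (hcompat : ∀ σ x, π (act σ x) = actQ σ (π x)) :
    haveI := Finite.of_surjective π hπ
    (hB.reductionKernel hR).map π ≤ (hB.comap_of_surjective π hπ hcompat).reductionKernel hR := by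
  rintro _ ⟨x, hx, rfl⟩ g hg
  simpa using hx (pull R L π g) hg

end IsModel

end Fermat.Agent.FFG
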